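/-
ISOG (track S12/S09), helper5: **the mod `p` cyclotomic value of a Frobenius element at `r ≠ p`
is `r`** (needed by the field `t0_frob` of `Mz2cInput`: the element `σ` is a Frobenius at `A ∣ r`).
-/
import Fermat.Agent.Lib.ET.ReductionQ
import Fermat.Agent.Lib.CFT.S14.LevelOfKernel
import Fermat.Agent.Lib.CFT.Bridge.Cyclo
import Fermat.Agent.Lib.Helper6.FrobeniusExists

set_option autoImplicit false
set_option linter.unusedSectionVars false
set_option linter.style.haveILetI false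
set_option linter.unusedVariables false

noncomputable section

namespace Fermat.Agent.Mazur2

local notation "Qb" => AlgebraicClosure ℚ
local notation "GQ" => (AlgebraicClosure ℚ ≃ₐ[ℚ] AlgebraicClosure ℚ)

/-- a Frobenius element at a place over `r ≠ p` has mod `p` cyclotomic value `r` -/
theorem mz2g_cycloExp_frob {p r : ℕ} [hp : Fact p.Prime] (hr : r.Prime) (hrp : r ≠ p)
    (A : ValuationSubring Qb) (hA : A.LiesOverPrime r) (σ : GQ) (hσ : A.IsFrobeniusAt σ r) :
    ((ExtCitation.cycloExp p σ : ℕ) : ZMod p) = (r : ZMod p) := by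
  haveI : NeZero p := ⟨hp.out.ne_zero⟩
  haveI : Fact r.Prime := ⟨hr⟩
  haveI hchar : CharP (IsLocalRing.ResidueField ↥A) r := Fermat.Agent.ET.etg_charP A hA
  obtain ⟨ζ, hζ⟩ := HasEnoughRootsOfUnity.exists_primitiveRoot Qb p
  have hζp : ζ ^ p = 1 := hζ.pow_eq_one
  have hζA : ζ ∈ A := Fermat.Agent.CFT.Bridge.mem_valuationSubring_of_pow_eq_one A hp.out.pos hζp
  set z : IsLocalRing.ResidueField ↥A := IsLocalRing.residue ↥A ⟨ζ, hζA⟩ with hz
  -- `z ^ p = 1`
  have hzp : z ^ p = 1 := by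
    rw [hz, ← map_pow]
    have : (⟨ζ, hζA⟩ : ↥A) ^ p = 1 := Subtype.ext (by simpa using hζp)
    rw [this, map_one]
  -- `z ≠ 1`
  have hz1 : z ≠ 1 := by
    intro h1
    have hsum : ∑ i ∈ Finset.range p, ζ ^ i = 0 := hζ.geom_sum_eq_zero hp.out.one_lt
    have hsumA : ∑ i ∈ Finset.range p, (⟨ζ, hζA⟩ : ↥A) ^ i = 0 := by
      apply Subtype.ext
      simpa using hsum
    have h2 := congrArg (IsLocalRing.residue ↥A) hsumA
    rw [map_sum, map_zero] at h2
    simp only [map_pow, ← hz, h1, one_pow, Finset.sum_const, Finset.card_range, nsmul_eq_mul,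
      mul_one] at h2
    have h3 : r ∣ p := (CharP.cast_eq_zero_iff (IsLocalRing.ResidueField ↥A) r p).mp h2
    exact hrp ((Nat.prime_dvd_prime_iff_eq hr hp.out).mp h3)
  have hord : orderOf z = p := orderOf_eq_prime hzp hz1
  -- Frobenius
  have h4 := Fermat.Agent.ET.etg_frob_res A hσ hζA
  have h5 : σ ζ = ζ ^ ExtCitation.cycloExp p σ :=
    Fermat.Agent.CFT.S14.apply_eq_pow_cycloExp p σ hζp
  have h6 : IsLocalRing.residue ↥A ⟨σ ζ, Fermat.Agent.ET.etg_frob_mem A hσ hζA⟩ =
      z ^ ExtCitation.cycloExp p σ := by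
    rw [hz, ← map_pow]
    congr 1
    apply Subtype.ext
    simpa using h5
  rw [h6, ← hz] at h4
  set u : (IsLocalRing.ResidueField ↥A)ˣ := Units.ofPowEqOne z p hzp hp.out.ne_zero with hu
  have huz : (u : IsLocalRing.ResidueField ↥A) = z := Units.val_ofPowEqOne _ _ _ _
  have h4u : u ^ ExtCitation.cycloExp p σ = u ^ r := by
    apply Units.ext
    rw [Units.val_pow_eq_pow_val, Units.val_pow_eq_pow_val, huz]
    exact h4
  have h7 := pow_eq_pow_iff_modEq.mp h4u
  rw [← orderOf_units, huz, hord] at h7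
  exact (ZMod.natCast_eq_natCast_iff _ _ _).mpr h7

/-- at every place over `r ≠ p` there is an element of the decomposition group (a Frobenius
element) with mod `p` cyclotomic value `r` -/
theorem mz2g_exists_frob_cyclo {p r : ℕ} [hp : Fact p.Prime] (hr : r.Prime) (hrp : r ≠ p)
    (A : ValuationSubring Qb) (hA : A.LiesOverPrime r) :
    ∃ σ : GQ, A.IsFrobeniusAt σ r ∧ σ ∈ A.decompositionSubgroup ℚ ∧
      ((ExtCitation.cycloExp p σ : ℕ) : ZMod p) = (r : ZMod p) := by
  obtain ⟨σ, hσ⟩ := Fermat.Agent.Lib.Helper6.exists_isFrobeniusAt A hr hA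
  exact ⟨σ, hσ, hσ.mem_decompositionSubgroup, mz2g_cycloExp_frob hr hrp A hA σ hσ⟩

end Fermat.Agent.Mazur2
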