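/-
ISOG (track S12/S09), package (P6) (helper7), part 1: **the integral model `freyCurveInt` of the
Frey curve**.

* `mz2f_frey_eq`     : `P.freyCurveInt.map (Int.castRingHom ℚ) = P.freyCurve`;
* `mz2f_c₄`, `mz2f_Δ` : `c₄ = A² + A B + B²`, `2⁸ Δ = (a b c)^(2p)` (`A = aᵖ`, `B = bᵖ`);
* `mz2f_Δ_ne_zero`, `mz2f_semistable` (`ℓ ∣ Δ → ℓ ∤ c₄`), `mz2f_dvd_Δ_iff` (`ℓ ∣ Δ ↔ ℓ ∣ a b c`),
  `mz2f_two_dvd_Δ`.
-/
import Mathlib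
import Fermat.Prelude.Def_FLTPrelim_FreyPackage

set_option autoImplicit false

namespace Fermat.Agent.Mazur2

open WeierstrassCurve

variable (P : FreyPackage)

/-- `2 ∣ b` -/
theorem mz2f_two_dvd_b : (2 : ℤ) ∣ P.b :=
  (ZMod.intCast_zmod_eq_zero_iff_dvd P.b 2).1 P.hb2

/-- `4 ∣ a + 1` -/
theorem mz2f_four_dvd_a : (4 : ℤ) ∣ P.a + 1 := by
  have h : ((P.a + 1 : ℤ) : ZMod 4) = 0 := by
    push_cast
    rw [P.ha4]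
    decide
  exact (ZMod.intCast_zmod_eq_zero_iff_dvd _ 4).mp h

/-- `2 ^ p ∣ b ^ p` -/
theorem mz2f_pow_dvd_b : (2 : ℤ) ^ P.p ∣ P.b ^ P.p :=
  pow_dvd_pow_of_dvd (mz2f_two_dvd_b P) P.p

/-- `32 ∣ b ^ p` -/
theorem mz2f_32_dvd_b : (32 : ℤ) ∣ P.b ^ P.p := by
  have h : (2 : ℤ) ^ 5 ∣ (2 : ℤ) ^ P.p := pow_dvd_pow 2 P.hp5
  have := dvd_trans h (mz2f_pow_dvd_b P)
  norm_num at this
  exact this

/-- `4 ∣ bᵖ - 1 - aᵖ` -/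
theorem mz2f_four_dvd : (4 : ℤ) ∣ P.b ^ P.p - 1 - P.a ^ P.p := by
  have h1 : (4 : ℤ) ∣ P.a ^ P.p + 1 := by
    have := P.hp_odd.add_dvd_pow_add_pow P.a 1
    rw [one_pow] at this
    exact dvd_trans (mz2f_four_dvd_a P) this
  have h2 : (4 : ℤ) ∣ P.b ^ P.p := dvd_trans (by norm_num) (mz2f_32_dvd_b P)
  have : P.b ^ P.p - 1 - P.a ^ P.p = P.b ^ P.p - (P.a ^ P.p + 1) := by ring
  rw [this]
  exact dvd_sub h2 h1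

/-- `16 ∣ -(aᵖ) bᵖ` -/
theorem mz2f_sixteen_dvd : (16 : ℤ) ∣ -(P.a ^ P.p) * (P.b ^ P.p) :=
  Dvd.dvd.mul_left (dvd_trans (by norm_num) (mz2f_32_dvd_b P)) _

theorem mz2f_a₂ : 4 * P.freyCurveInt.a₂ = P.b ^ P.p - 1 - P.a ^ P.p :=
  Int.mul_ediv_cancel' (mz2f_four_dvd P)

theorem mz2f_a₄ : 16 * P.freyCurveInt.a₄ = -(P.a ^ P.p) * (P.b ^ P.p) :=
  Int.mul_ediv_cancel' (mz2f_sixteen_dvd P)

/-- **the generic fibre of `freyCurveInt` is the Frey curve** -/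
theorem mz2f_frey_eq : P.freyCurveInt.map (Int.castRingHom ℚ) = P.freyCurve := by
  have h4 : ((4 : ℤ) : ℚ) ≠ 0 := by norm_num
  have h16 : ((16 : ℤ) : ℚ) ≠ 0 := by norm_num
  ext
  · simp [FreyPackage.freyCurveInt, FreyPackage.freyCurve]
  · show ((P.freyCurveInt.a₂ : ℤ) : ℚ) = (P.b ^ P.p - 1 - P.a ^ P.p) / 4
    have := congrArg (Int.cast : ℤ → ℚ) (mz2f_a₂ P)
    push_cast at this
    rw [eq_div_iff (by norm_num)]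
    linarith
  · simp [FreyPackage.freyCurveInt, FreyPackage.freyCurve]
  · show ((P.freyCurveInt.a₄ : ℤ) : ℚ) = -(P.a ^ P.p) * (P.b ^ P.p) / 16
    have := congrArg (Int.cast : ℤ → ℚ) (mz2f_a₄ P)
    push_cast at this
    rw [eq_div_iff (by norm_num)]
    linarith
  · simp [FreyPackage.freyCurveInt, FreyPackage.freyCurve]

theorem mz2f_b₂ : P.freyCurveInt.b₂ = P.b ^ P.p - P.a ^ P.p := by
  have h := mz2f_a₂ P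
  have h1 : P.freyCurveInt.a₁ = 1 := rfl
  rw [WeierstrassCurve.b₂, h1]
  linarith

theorem mz2f_b₄ : 8 * P.freyCurveInt.b₄ = -(P.a ^ P.p) * (P.b ^ P.p) := by
  have h := mz2f_a₄ P
  have h1 : P.freyCurveInt.a₁ = 1 := rfl
  have h3 : P.freyCurveInt.a₃ = 0 := rfl
  rw [WeierstrassCurve.b₄, h1, h3]
  linarith

theorem mz2f_b₆ : P.freyCurveInt.b₆ = 0 := by
  have h3 : P.freyCurveInt.a₃ = 0 := rfl
  have h6 : P.freyCurveInt.a₆ = 0 := rfl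
  rw [WeierstrassCurve.b₆, h3, h6]
  ring

theorem mz2f_b₈ : P.freyCurveInt.b₈ = -P.freyCurveInt.a₄ ^ 2 := by
  have h3 : P.freyCurveInt.a₃ = 0 := rfl
  have h6 : P.freyCurveInt.a₆ = 0 := rfl
  rw [WeierstrassCurve.b₈, h3, h6]
  ring

/-- `c₄ = A² + A B + B²` -/
theorem mz2f_c₄ : P.freyCurveInt.c₄ =
    (P.a ^ P.p) ^ 2 + P.a ^ P.p * P.b ^ P.p + (P.b ^ P.p) ^ 2 := by
  have h2 := mz2f_b₂ P
  have h4 := mz2f_b₄ P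
  rw [WeierstrassCurve.c₄, h2]
  linear_combination (-3 : ℤ) * h4

/-- `2⁸ Δ = (A B C)²` with `C = A + B = cᵖ` -/
theorem mz2f_Δ : 256 * P.freyCurveInt.Δ = (P.a * P.b * P.c) ^ (2 * P.p) := by
  have h2 := mz2f_b₂ P
  have h4 := mz2f_b₄ P
  have h6 := mz2f_b₆ P
  have h8 := mz2f_b₈ P
  have ha4 := mz2f_a₄ P
  have hb4 : P.freyCurveInt.b₄ = 2 * P.freyCurveInt.a₄ := by
    have h1 : P.freyCurveInt.a₁ = 1 := rfl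
    have h3 : P.freyCurveInt.a₃ = 0 := rfl
    rw [WeierstrassCurve.b₄, h1, h3]
    ring
  have hc : P.c ^ P.p = P.a ^ P.p + P.b ^ P.p := P.hFLT.symm
  have e : (P.a * P.b * P.c) ^ (2 * P.p) = (P.a ^ P.p) ^ 2 * (P.b ^ P.p) ^ 2 * (P.c ^ P.p) ^ 2 := by
    rw [mul_pow, mul_pow, pow_mul', pow_mul', pow_mul']
  rw [e, hc, WeierstrassCurve.Δ, h2, h6, h8, hb4]
  have e2 : (P.a ^ P.p) ^ 2 * (P.b ^ P.p) ^ 2 = (16 * P.freyCurveInt.a₄) ^ 2 := by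
    rw [ha4]
    ring
  rw [e2]
  have e3 : (P.a ^ P.p + P.b ^ P.p) ^ 2 = (P.b ^ P.p - P.a ^ P.p) ^ 2 - 4 * (16 * P.freyCurveInt.a₄) := by
    rw [ha4]
    ring
  rw [e3]
  ring

theorem mz2f_Δ_ne_zero : P.freyCurveInt.Δ ≠ 0 := by
  intro h0
  have h := mz2f_Δ P
  rw [h0, mul_zero] at h
  exact pow_ne_zero _ P.habc0 h.symm

/-- `4 ∣ Δ`, in particular `2 ∣ Δ` -/
theorem mz2f_four_dvd_Δ : (4 : ℤ) ∣ P.freyCurveInt.Δ := by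
  have h := mz2f_Δ P
  have h1 : (32 : ℤ) ^ 2 ∣ (P.a * P.b * P.c) ^ (2 * P.p) := by
    have e : (P.a * P.b * P.c) ^ (2 * P.p) = ((P.a * P.b * P.c) ^ P.p) ^ 2 := by
      rw [pow_mul']
    rw [e]
    apply pow_dvd_pow_of_dvd
    rw [mul_pow, mul_pow]
    exact Dvd.dvd.mul_right (Dvd.dvd.mul_left (mz2f_32_dvd_b P) _) _
  rw [← h] at h1
  have h2 : (256 : ℤ) * 4 ∣ 256 * P.freyCurveInt.Δ := by
    norm_num at h1 ⊢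
    exact h1
  exact (mul_dvd_mul_iff_left (by norm_num)).mp h2

theorem mz2f_two_dvd_Δ : (2 : ℤ) ∣ P.freyCurveInt.Δ :=
  dvd_trans (by norm_num) (mz2f_four_dvd_Δ P)

/-- a prime dividing two of `a, b, c`… : a prime cannot divide both `a` and `b` -/
theorem mz2f_not_dvd_of_gcd {x y : ℤ} (h : gcd x y = 1) {ℓ : ℕ} (hℓ : ℓ.Prime)
    (hx : (ℓ : ℤ) ∣ x) (hy : (ℓ : ℤ) ∣ y) : False := by
  have h1 : (ℓ : ℤ) ∣ gcd x y := dvd_gcd hx hy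
  rw [h] at h1
  have := Int.isUnit_iff.mp (isUnit_of_dvd_one h1)
  have hℓ2 := hℓ.two_le
  omega

/-- **`ℓ ∣ Δ` implies `ℓ ∣ a b c`** -/
theorem mz2f_dvd_abc_of_dvd_Δ {ℓ : ℕ} (hℓ : ℓ.Prime) (h : (ℓ : ℤ) ∣ P.freyCurveInt.Δ) :
    (ℓ : ℤ) ∣ P.a * P.b * P.c := by
  have h1 : (ℓ : ℤ) ∣ (P.a * P.b * P.c) ^ (2 * P.p) := by
    rw [← mz2f_Δ P]
    exact Dvd.dvd.mul_left h _
  exact (Nat.prime_iff_prime_int.mp hℓ).dvd_of_dvd_pow h1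

/-- **`ℓ ∣ a b c` implies `ℓ ∣ Δ`** -/
theorem mz2f_dvd_Δ_of_dvd_abc {ℓ : ℕ} (hℓ : ℓ.Prime) (h : (ℓ : ℤ) ∣ P.a * P.b * P.c) :
    (ℓ : ℤ) ∣ P.freyCurveInt.Δ := by
  by_cases h2 : ℓ = 2
  · subst h2
    exact_mod_cast mz2f_two_dvd_Δ P
  · have hp0 : 2 * P.p ≠ 0 := by have := P.hp5; omega
    have h1 : (ℓ : ℤ) ∣ 256 * P.freyCurveInt.Δ := by
      rw [mz2f_Δ P]
      exact dvd_pow h hp0
    have hpr := Nat.prime_iff_prime_int.mp hℓ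
    rcases hpr.dvd_or_dvd h1 with h3 | h3
    · exfalso
      have h4 : (ℓ : ℤ) ∣ (2 : ℤ) ^ 8 := by norm_num; exact h3
      have h5 := hpr.dvd_of_dvd_pow h4
      have h6 : ℓ ∣ 2 := by exact_mod_cast h5
      exact h2 ((Nat.prime_dvd_prime_iff_eq hℓ Nat.prime_two).mp h6)
    · exact h3

theorem mz2f_dvd_Δ_iff {ℓ : ℕ} (hℓ : ℓ.Prime) :
    (ℓ : ℤ) ∣ P.freyCurveInt.Δ ↔ (ℓ : ℤ) ∣ P.a * P.b * P.c :=
  ⟨mz2f_dvd_abc_of_dvd_Δ P hℓ, mz2f_dvd_Δ_of_dvd_abc P hℓ⟩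

/-- **`freyCurveInt` is semistable**: a prime dividing `Δ` does not divide `c₄` -/
theorem mz2f_semistable {ℓ : ℕ} (hℓ : ℓ.Prime) (h : (ℓ : ℤ) ∣ P.freyCurveInt.Δ) :
    ¬ (ℓ : ℤ) ∣ P.freyCurveInt.c₄ := by
  have hpr := Nat.prime_iff_prime_int.mp hℓ
  have habc := mz2f_dvd_abc_of_dvd_Δ P hℓ h
  have hp0 : P.p ≠ 0 := P.hp0
  intro hc
  rw [mz2f_c₄] at hc
  rcases hpr.dvd_or_dvd habc with hab | hcc
  · rcases hpr.dvd_or_dvd hab with ha | hb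
    · -- `ℓ ∣ a`, so `ℓ ∣ B²`
      have h1 : (ℓ : ℤ) ∣ (P.a ^ P.p) ^ 2 + P.a ^ P.p * P.b ^ P.p :=
        dvd_add (dvd_pow (dvd_pow ha hp0) two_ne_zero) (Dvd.dvd.mul_right (dvd_pow ha hp0) _)
      have h2 : (ℓ : ℤ) ∣ (P.b ^ P.p) ^ 2 := (dvd_add_right h1).mp hc
      have h3 : (ℓ : ℤ) ∣ P.b := hpr.dvd_of_dvd_pow (hpr.dvd_of_dvd_pow h2)
      exact mz2f_not_dvd_of_gcd P.hgcdab hℓ ha h3
    · -- `ℓ ∣ b`, so `ℓ ∣ A²`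
      have h1 : (ℓ : ℤ) ∣ P.a ^ P.p * P.b ^ P.p + (P.b ^ P.p) ^ 2 :=
        dvd_add (Dvd.dvd.mul_left (dvd_pow hb hp0) _) (dvd_pow (dvd_pow hb hp0) two_ne_zero)
      have h2 : (ℓ : ℤ) ∣ (P.a ^ P.p) ^ 2 := by
        have : (P.a ^ P.p) ^ 2 + P.a ^ P.p * P.b ^ P.p + (P.b ^ P.p) ^ 2 =
            (P.a ^ P.p) ^ 2 + (P.a ^ P.p * P.b ^ P.p + (P.b ^ P.p) ^ 2) := by ring
        rw [this] at hc
        exact (dvd_add_left h1).mp hc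
      have h3 : (ℓ : ℤ) ∣ P.a := hpr.dvd_of_dvd_pow (hpr.dvd_of_dvd_pow h2)
      exact mz2f_not_dvd_of_gcd P.hgcdab hℓ h3 hb
  · -- `ℓ ∣ c`: `A² + A B + B² = (A + B)² - A B`, so `ℓ ∣ A B`
    have hC : (ℓ : ℤ) ∣ P.a ^ P.p + P.b ^ P.p := by
      rw [P.hFLT]
      exact dvd_pow hcc hp0
    have e : (P.a ^ P.p) ^ 2 + P.a ^ P.p * P.b ^ P.p + (P.b ^ P.p) ^ 2 =
        (P.a ^ P.p + P.b ^ P.p) ^ 2 - P.a ^ P.p * P.b ^ P.p := by ring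
    rw [e] at hc
    have h1 : (ℓ : ℤ) ∣ P.a ^ P.p * P.b ^ P.p :=
      (dvd_sub_right (dvd_pow hC two_ne_zero)).mp hc
    rcases hpr.dvd_or_dvd h1 with ha | hb
    · exact mz2f_not_dvd_of_gcd P.hgcdac hℓ (hpr.dvd_of_dvd_pow ha) hcc
    · exact mz2f_not_dvd_of_gcd P.hgcdbc hℓ (hpr.dvd_of_dvd_pow hb) hcc

end Fermat.Agent.Mazur2
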