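/-
ISOG / (P3), the local data `Mz2eData` for the integral model of the FREY curve (helper3).

`W = P.freyCurveInt`; the two-torsion polynomial `4x³ + b₂x² + 2b₄x + b₆` has the rational roots
`0, aᵖ/4, -bᵖ/4`.  At a prime `ℓ ∣ Δ` (i.e. `ℓ ∣ a b c`) the roots are ordered so that the first two
are congruent: `ℓ ∣ b` : `(0, -bᵖ/4, aᵖ/4)`; `ℓ ∣ a` : `(0, aᵖ/4, -bᵖ/4)`; `ℓ ∣ c` :
`(aᵖ/4, -bᵖ/4, 0)`.

* `mz2h_frey_data` : `Nonempty (Mz2eData P.freyCurveInt A)` for every `A` over a prime `ℓ ∣ Δ`.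
-/
import Fermat.Agent.Lib.Mazur2.Comp.Data
import Fermat.Agent.Lib.Mazur2.Frey.Model

set_option autoImplicit false
set_option linter.unusedSectionVars false
set_option linter.unusedVariables false

open WeierstrassCurve WeierstrassCurve.Affine

namespace Fermat.Agent.Mazur2

open Fermat.Agent.S05Lib Fermat.Agent.LR Fermat.Agent.S58

local notation "Qb" => AlgebraicClosure ℚ

variable (P : FreyPackage)

/-- the Vieta identities for the two-torsion polynomial of the Frey curve -/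
theorem mz2h_roots {e₁ e₂ e₃ : ℚ}
    (hsum : e₁ + e₂ + e₃ = ((P.a : ℚ) ^ P.p - (P.b : ℚ) ^ P.p) / 4)
    (hpair : e₁ * e₂ + e₁ * e₃ + e₂ * e₃ = -((P.a : ℚ) ^ P.p * (P.b : ℚ) ^ P.p) / 16)
    (hprod : e₁ * e₂ * e₃ = 0) :
    LreRoots (s58E P.freyCurveInt) e₁ e₂ e₃ where
  hb₂ := by
    rw [WeierstrassCurve.map_b₂, mz2f_b₂, hsum, eq_intCast]
    push_cast
    ring
  hb₄ := by
    rw [WeierstrassCurve.map_b₄, hpair]
    have h := congrArg (Int.cast : ℤ → ℚ) (mz2f_b₄ P)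
    push_cast at h
    rw [eq_intCast]
    linarith
  hb₆ := by
    rw [WeierstrassCurve.map_b₆, mz2f_b₆, hprod]
    simp

/-- **the local data of the Frey curve at a bad prime** -/
theorem mz2h_frey_data {ℓ : ℕ} (hℓ : ℓ.Prime) (A : ValuationSubring Qb)
    (hA : A.LiesOverPrime ℓ) (hbad : (ℓ : ℤ) ∣ P.freyCurveInt.Δ) :
    Nonempty (Mz2eData P.freyCurveInt A) := by
  obtain ⟨v, h1, h2, h3, h4, h5⟩ := exists_qval_of_liesOver A hℓ hA
  have hv : QValFor A ℓ v := ⟨h1, h2, h3, h4, h5⟩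
  have hp0 : P.p ≠ 0 := P.hp0
  have hpr := Nat.prime_iff_prime_int.mp hℓ
  have habc := (mz2f_dvd_Δ_iff P hℓ).mp hbad
  by_cases hb : (ℓ : ℤ) ∣ P.b
  · -- `ℓ ∣ b` (this covers `ℓ = 2`)
    refine ⟨{ ℓ := ℓ, hℓ := hℓ, hA := hA, hΔ0 := mz2f_Δ_ne_zero P, hbad := hbad,
              hc₄ := mz2f_semistable P hℓ hbad, v := v, hv := hv,
              e₁ := 0, e₂ := -((P.b : ℚ) ^ P.p) / 4, e₃ := (P.a : ℚ) ^ P.p / 4,
              hr := mz2h_roots P (by ring) (by ring) (by ring), hnode := ?_, ha₂ := ?_ }⟩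
    · have e : 4 * (((0 : ℚ) : Qb) - ((-((P.b : ℚ) ^ P.p) / 4 : ℚ) : Qb)) =
          ((P.b ^ P.p : ℤ) : Qb) := by
        push_cast
        ring
      rw [e]
      exact hv.gt_int hℓ (dvd_pow hb hp0)
    · by_cases hℓ2 : ℓ = 2
      · right
        have e : -((((-((P.b : ℚ) ^ P.p) / 4 : ℚ) : Qb) - ((0 : ℚ) : Qb)) +
            ((((P.a : ℚ) ^ P.p / 4 : ℚ) : Qb) - ((0 : ℚ) : Qb))) - 1 / 4 =
            ((P.freyCurveInt.a₂ : ℤ) : Qb) := by
          have h := congrArg (Int.cast : ℤ → Qb) (mz2f_a₂ P)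
          push_cast at h ⊢
          linear_combination (-1 / 4 : Qb) * h
        rw [e]
        exact hv.ge_int _
      · exact Or.inl (hv.is_two hℓ hℓ2)
  · have hℓ2 : ℓ ≠ 2 := by
      rintro rfl
      exact hb (by exact_mod_cast mz2f_two_dvd_b P)
    rcases hpr.dvd_or_dvd habc with hab | hc
    · have ha : (ℓ : ℤ) ∣ P.a := (hpr.dvd_or_dvd hab).resolve_right hb
      refine ⟨{ ℓ := ℓ, hℓ := hℓ, hA := hA, hΔ0 := mz2f_Δ_ne_zero P, hbad := hbad,
                hc₄ := mz2f_semistable P hℓ hbad, v := v, hv := hv,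
                e₁ := 0, e₂ := (P.a : ℚ) ^ P.p / 4, e₃ := -((P.b : ℚ) ^ P.p) / 4,
                hr := mz2h_roots P (by ring) (by ring) (by ring), hnode := ?_,
                ha₂ := Or.inl (hv.is_two hℓ hℓ2) }⟩
      have e : 4 * (((0 : ℚ) : Qb) - (((P.a : ℚ) ^ P.p / 4 : ℚ) : Qb)) =
          ((-(P.a ^ P.p) : ℤ) : Qb) := by
        push_cast
        ring
      rw [e]
      exact hv.gt_int hℓ (Dvd.dvd.neg_right (dvd_pow ha hp0))
    · refine ⟨{ ℓ := ℓ, hℓ := hℓ, hA := hA, hΔ0 := mz2f_Δ_ne_zero P, hbad := hbad,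
                hc₄ := mz2f_semistable P hℓ hbad, v := v, hv := hv,
                e₁ := (P.a : ℚ) ^ P.p / 4, e₂ := -((P.b : ℚ) ^ P.p) / 4, e₃ := 0,
                hr := mz2h_roots P (by ring) (by ring) (by ring), hnode := ?_,
                ha₂ := Or.inl (hv.is_two hℓ hℓ2) }⟩
      have e : 4 * ((((P.a : ℚ) ^ P.p / 4 : ℚ) : Qb) - ((-((P.b : ℚ) ^ P.p) / 4 : ℚ) : Qb)) =
          ((P.c ^ P.p : ℤ) : Qb) := by
        rw [← P.hFLT]
        push_cast
        ring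
      rw [e]
      exact hv.gt_int hℓ (dvd_pow hc hp0)

end Fermat.Agent.Mazur2
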