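/-
ISOG (track S12/S09), package (P6), pieces (d1) + (d2) (helper5, literals of helper7):

* `mz2g_frob_data`     : a good prime `ℓ₀`, a Frobenius element `σ₀` at `ℓ₀` with
  `σ₀² - a_ℓ₀ σ₀ + ℓ₀ = 0` on the `p`-power torsion of the Frey curve and `a_ℓ₀ ≠ ℓ₀ + 1`
  (the fields `ℓ₀ a₀ σ₀ a₀_ne frob_rel` of `Mz2cInput`);
* `mz2g_three_dvd_abc` : a cofixed line in `E[p]`, `p ≥ 11`, forces `3 ∣ a b c`
  (otherwise `p ∣ #Ẽ(𝔽₃) ∈ [1, 7]`).
-/
import Fermat.Agent.Lib.Mazur2.Chain.Level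
import Fermat.Agent.Lib.Mazur2.Frey.Model
import Fermat.Agent.Lib.ET.Main
import Fermat.Agent.Lib.S58.PointCount
import Fermat.Agent.Lib.Helper6.FrobeniusExists

set_option autoImplicit false
set_option linter.unusedSectionVars false
set_option linter.style.haveILetI false
set_option linter.unusedVariables false

noncomputable section

namespace Fermat.Agent.Mazur2

open WeierstrassCurve WeierstrassCurve.Affine
open scoped WeierstrassCurve.Affine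

local notation "Qb" => AlgebraicClosure ℚ
local notation "GQ" => (AlgebraicClosure ℚ ≃ₐ[ℚ] AlgebraicClosure ℚ)

/-- the identity behind "`σ = 1` on `T / N` and `σ² - a σ + ℓ = 0` give `(1 - a + ℓ) T ⊆ N`" -/
theorem mz2g_frob_identity {G T : Type*} [Group G] [AddCommGroup T] [DistribMulAction G T]
    (σ : G) (a l : ℤ) (x : T) :
    (1 - a + l) • x = a • (σ • x - x) - (σ • x - x) - σ • (σ • x - x) +
      (σ • σ • x - a • σ • x + l • x) := by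
  simp only [smul_sub, sub_smul, add_smul, one_smul]
  abel

/-- a prime not dividing a nonzero integer, different from a given one -/
theorem mz2g_exists_prime (D : ℤ) (hD : D ≠ 0) (m : ℕ) :
    ∃ ℓ : ℕ, ℓ.Prime ∧ ¬ (ℓ : ℤ) ∣ D ∧ m < ℓ := by
  obtain ⟨ℓ, hge, hprime⟩ := Nat.exists_infinite_primes (D.natAbs + m + 1)
  refine ⟨ℓ, hprime, ?_, by omega⟩
  intro hdvd
  have h1 : ℓ ∣ D.natAbs := Int.natCast_dvd.mp hdvd
  have h2 := Nat.le_of_dvd (Int.natAbs_pos.mpr hD) h1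
  omega

/-- (d2) **the Frobenius data of the endgame** -/
theorem mz2g_frob_data (P : FreyPackage) :
    ∃ (ℓ₀ : ℕ) (σ₀ : GQ), ℓ₀.Prime ∧ P.freyCurveInt.apOfModel ℓ₀ ≠ (ℓ₀ : ℤ) + 1 ∧
      ∀ (n : ℕ) (x : ((P.freyCurveInt.map (Int.castRingHom ℚ)).toAffine⁄Qb).Point),
        P.p ^ n • x = 0 →
          σ₀ • σ₀ • x - P.freyCurveInt.apOfModel ℓ₀ • σ₀ • x + (ℓ₀ : ℤ) • x = 0 := by
  obtain ⟨ℓ₀, hprime, hΔ, hlt⟩ := mz2g_exists_prime P.freyCurveInt.Δ (mz2f_Δ_ne_zero P) P.p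
  obtain ⟨A, σ₀, hA, hσ₀⟩ := Fermat.Agent.Lib.Helper6.exists_frobenius ℓ₀ hprime
  refine ⟨ℓ₀, σ₀, hprime, (Fermat.Agent.S58.s58p_ap_ne P.freyCurveInt hprime).1, ?_⟩
  intro n x hx
  have hcop : (P.p ^ n).Coprime ℓ₀ :=
    Nat.Coprime.pow_left n ((Nat.coprime_primes P.pp hprime).mpr (by omega))
  exact Fermat.Agent.ET.et_main P.freyCurveInt hprime hΔ A hA σ₀ hσ₀ hcop x hx

/-- (d1) **`3 ∣ a b c`** as soon as `E[p]` has a cofixed line, `p ≥ 11` -/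
theorem mz2g_three_dvd_abc (P : FreyPackage) (hp : 11 ≤ P.p)
    (N : AddSubgroup ((P.freyCurveInt.map (Int.castRingHom ℚ)).toAffine⁄Qb).Point)
    (hcof : ∀ σ : GQ, ∀ x : ((P.freyCurveInt.map (Int.castRingHom ℚ)).toAffine⁄Qb).Point,
      P.p • x = 0 → σ • x - x ∈ N)
    (hne : ∃ x : ((P.freyCurveInt.map (Int.castRingHom ℚ)).toAffine⁄Qb).Point,
      P.p • x = 0 ∧ x ∉ N)
    (hNtor : ∀ x ∈ N, P.p • x = 0)
    (hNstab : ∀ σ : GQ, ∀ x ∈ N, σ • x ∈ N) : (3 : ℤ) ∣ P.a * P.b * P.c := by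
  by_contra h3
  haveI : Fact P.p.Prime := ⟨P.pp⟩
  have hΔ : ¬ ((3 : ℕ) : ℤ) ∣ P.freyCurveInt.Δ := fun h =>
    h3 (by exact_mod_cast (mz2f_dvd_Δ_iff P Nat.prime_three).mp h)
  obtain ⟨A, σ, hA, hσ⟩ := Fermat.Agent.Lib.Helper6.exists_frobenius 3 Nat.prime_three
  obtain ⟨x, hx, hxN⟩ := hne
  have hcop : P.p.Coprime 3 := (Nat.coprime_primes P.pp Nat.prime_three).mpr (by omega)
  have hrel := Fermat.Agent.ET.et_main P.freyCurveInt Nat.prime_three hΔ A hA σ hσ hcop x hx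
  have hd : σ • x - x ∈ N := hcof σ x hx
  obtain ⟨hlo, hhi⟩ := Fermat.Agent.S58.s58p_ap_bounds P.freyCurveInt Nat.prime_three
  -- `(4 - a₃) x ∈ N`
  have hkey : (1 - P.freyCurveInt.apOfModel 3 + ((3 : ℕ) : ℤ)) • x ∈ N := by
    rw [mz2g_frob_identity σ (P.freyCurveInt.apOfModel 3) ((3 : ℕ) : ℤ) x, hrel, add_zero]
    exact N.sub_mem (N.sub_mem (N.zsmul_mem hd _) hd) (hNstab σ _ hd)
  apply hxN
  have hpx : P.p ^ 1 • x ∈ N := by
    rw [pow_one, hx]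
    exact N.zero_mem
  refine mz2c_mem_of_zsmul_mem hpx ?_ hkey
  intro hdvd
  have hpos : (0 : ℤ) < 1 - P.freyCurveInt.apOfModel 3 + ((3 : ℕ) : ℤ) := by
    push_cast at hhi ⊢
    linarith
  have hle := Int.le_of_dvd hpos hdvd
  push_cast at hlo hle
  have : (11 : ℤ) ≤ (P.p : ℤ) := by exact_mod_cast hp
  linarith

end Fermat.Agent.Mazur2
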