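/-
ISOG (track S12/S09), package (P6) (helper7), part 2: **the cofixed line as input of the chain**.

`T := (E⁄ℚ̄).Point` for `E = P.freyCurveInt.map (Int.castRingHom ℚ)`.
* `mz2i_card_tor`  : `card T[p^n] = p^(2n)`;
* `mz2i_open_stab` : stabilisers of points are open;
* `mz2i_line`      : a Galois-stable cofixed line of `P.freyCurve` gives an `AddSubgroup N ≤ T[p]` of
  order `p`, Galois-stable, cofixed;
* `mz2i_cyclo`     : `G_ℚ` acts on `N` through the mod `p` cyclotomic character.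
-/
import Mathlib
import Fermat.Prelude.Def_FLTPrelim_CofixedLine
import Fermat.Agent.Lib.Mazur2.Frey.Model
import Fermat.Agent.Lib.Mazur2.Chain.Defs
import Fermat.Agent.Lib.S13.Torsion.Frey
import Fermat.Agent.Lib.S13.Glue
import Fermat.Agent.Lib.Delta.Peu.Det
import Fermat.Agent.Lib.CFT.S14.LevelOfKernel

set_option autoImplicit false
set_option linter.unusedSectionVars false
set_option linter.unusedVariables false
set_option linter.style.haveILetI false

open WeierstrassCurve WeierstrassCurve.Affine WeierstrassCurve.Affine.Point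

namespace Fermat.Agent.Mazur2

local notation "Qb" => AlgebraicClosure ℚ
local notation "GQ" => (AlgebraicClosure ℚ ≃ₐ[ℚ] AlgebraicClosure ℚ)

/-- the generic fibre of `freyCurveInt` -/
abbrev mz2iE (P : FreyPackage) : WeierstrassCurve ℚ := P.freyCurveInt.map (Int.castRingHom ℚ)

/-- the group of `ℚ̄`-points of the Frey curve (integral model) -/
abbrev Mz2iT (P : FreyPackage) : Type := ((mz2iE P).toAffine⁄Qb).Point

variable (P : FreyPackage)

/-- **`card T[p^n] = p^(2n)`** -/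
theorem mz2i_card_tor (n : ℕ) : Nat.card ↥(mz2cTor (Mz2iT P) P.p n) = P.p ^ (2 * n) := by
  have hpos : 0 < P.p ^ n := pow_pos P.hppos n
  have h := Fermat.Agent.S13Lib.Torsion.natCard_torsionBy_frey P hpos
  rw [← mz2f_frey_eq P] at h
  rw [pow_mul', ← h]
  refine Nat.card_congr (Equiv.subtypeEquivRight fun x => ?_)
  rw [mem_mz2cTor, Submodule.mem_torsionBy_iff, natCast_zsmul]

/-- **stabilisers of points are open** -/
theorem mz2i_open_stab (x : Mz2iT P) : IsOpen {σ : GQ | σ • x = x} := by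
  obtain ⟨U, hU, hfix⟩ := Fermat.Agent.S13Lib.isOpen_stabilizer_point (E := mz2iE P) x
  let S : Subgroup GQ :=
    { carrier := {σ : GQ | σ • x = x}
      mul_mem' := fun {a b} ha hb => by
        show (a * b) • x = x
        rw [mul_smul, show b • x = x from hb, show a • x = x from ha]
      one_mem' := one_smul _ x
      inv_mem' := fun {a} ha => by
        show a⁻¹ • x = x
        rw [inv_smul_eq_iff]
        exact (show a • x = x from ha).symm }
  have hle : U ≤ S := fun σ hσ => hfix σ hσ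
  exact Subgroup.isOpen_mono hle hU

/-- **the cofixed line**: a Galois-stable cofixed line of the Frey curve, as a subgroup of `T` -/
theorem mz2i_line
    (h : HasGaloisStableCofixedLine (K := AlgebraicClosure ℚ) ℚ P.freyCurve P.p) :
    ∃ N : AddSubgroup (Mz2iT P), N ≤ mz2cTor (Mz2iT P) P.p 1 ∧ Nat.card ↥N = P.p ∧
      (∀ σ : GQ, ∀ x ∈ N, σ • x ∈ N) ∧
      (∀ σ : GQ, ∀ x ∈ mz2cTor (Mz2iT P) P.p 1, σ • x - x ∈ N) := by
  haveI : Fact P.p.Prime := ⟨P.pp⟩
  have hfr := Fermat.Agent.S13Lib.Torsion.finrank_torsionBy_frey P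
  rw [← mz2f_frey_eq P] at h hfr
  obtain ⟨N₀, hstab, hbot, htop, hcof⟩ := h
  have hfinV : Module.Finite (ZMod P.p)
      (Submodule.torsionBy ℤ ((mz2iE P).toAffine⁄Qb).Point P.p) :=
    Module.finite_of_finrank_pos (by rw [hfr]; norm_num)
  -- `finrank N₀ = 1`
  have h1 : Module.finrank (ZMod P.p) N₀ = 1 := by
    have hle : Module.finrank (ZMod P.p) N₀ ≤ 2 := hfr ▸ Submodule.finrank_le N₀
    have h0 : Module.finrank (ZMod P.p) N₀ ≠ 0 := by
      intro h0
      exact hbot (Submodule.finrank_eq_zero.mp h0)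
    have h2 : Module.finrank (ZMod P.p) N₀ ≠ 2 := by
      intro h2
      exact htop (Submodule.eq_top_of_finrank_eq (h2.trans hfr.symm))
    omega
  have hcard₀ : Nat.card N₀ = P.p := by
    have := Module.natCard_eq_pow_finrank (K := ZMod P.p) (V := N₀)
    rw [h1, pow_one, Nat.card_zmod] at this
    exact this
  -- the subgroup of `T`
  let N : AddSubgroup (Mz2iT P) :=
    { carrier := {x | ∃ hx : x ∈ Submodule.torsionBy ℤ ((mz2iE P).toAffine⁄Qb).Point P.p,
        (⟨x, hx⟩ : Submodule.torsionBy ℤ ((mz2iE P).toAffine⁄Qb).Point P.p) ∈ N₀}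
      zero_mem' := ⟨Submodule.zero_mem _, N₀.zero_mem⟩
      add_mem' := by
        rintro x y ⟨hx, hx'⟩ ⟨hy, hy'⟩
        exact ⟨Submodule.add_mem _ hx hy, N₀.add_mem hx' hy'⟩
      neg_mem' := by
        rintro x ⟨hx, hx'⟩
        exact ⟨Submodule.neg_mem _ hx, N₀.neg_mem hx'⟩ }
  have hmemN : ∀ x : Mz2iT P, x ∈ N ↔
      ∃ hx : x ∈ Submodule.torsionBy ℤ ((mz2iE P).toAffine⁄Qb).Point P.p,
        (⟨x, hx⟩ : Submodule.torsionBy ℤ ((mz2iE P).toAffine⁄Qb).Point P.p) ∈ N₀ := fun x => Iff.rfl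
  have htor_iff : ∀ x : Mz2iT P, x ∈ mz2cTor (Mz2iT P) P.p 1 ↔
      x ∈ Submodule.torsionBy ℤ ((mz2iE P).toAffine⁄Qb).Point P.p := by
    intro x
    rw [mem_mz2cTor, pow_one, Submodule.mem_torsionBy_iff, natCast_zsmul]
  refine ⟨N, ?_, ?_, ?_, ?_⟩
  · rintro x ⟨hx, -⟩
    exact (htor_iff x).mpr hx
  · rw [← hcard₀]
    refine Nat.card_congr ⟨fun x => ⟨⟨x.1, x.2.choose⟩, x.2.choose_spec⟩,
      fun y => ⟨y.1.1, ⟨y.1.2, y.2⟩⟩, fun x => rfl, fun y => rfl⟩
  · rintro σ x ⟨hx, hx'⟩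
    exact ⟨smul_mem_torsionBy σ hx, hstab σ _ hx'⟩
  · intro σ x hx
    have hx' := (htor_iff x).mp hx
    have := hcof σ ⟨x, hx'⟩
    exact ⟨Submodule.sub_mem _ (smul_mem_torsionBy σ hx') hx', this⟩

/-- a cyclic group of prime order: every element is a multiple of a nonzero one -/
theorem mz2i_exists_nsmul {G : Type*} [AddCommGroup G] {p : ℕ} (hp : p.Prime)
    (N : AddSubgroup G) (hN : Nat.card ↥N = p) {g : G} (hg : g ∈ N) (hg0 : g ≠ 0) :
    ∀ x ∈ N, ∃ k : ℕ, x = k • g := by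
  haveI : Fact p.Prime := ⟨hp⟩
  haveI : Finite ↥N := Nat.finite_of_card_ne_zero (by rw [hN]; exact hp.ne_zero)
  intro x hx
  have hg' : (⟨g, hg⟩ : ↥N) ≠ 0 := fun h => hg0 (congrArg Subtype.val h)
  have hz : AddSubgroup.zmultiples (⟨g, hg⟩ : ↥N) = ⊤ :=
    zmultiples_eq_top_of_prime_card (G := ↥N) hN hg'
  have hmem : (⟨x, hx⟩ : ↥N) ∈ AddSubgroup.zmultiples (⟨g, hg⟩ : ↥N) := by
    rw [hz]; exact AddSubgroup.mem_top _
  obtain ⟨m, hm⟩ := AddSubgroup.mem_zmultiples_iff.mp hmem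
  have hm' : m • g = x := by
    have := congrArg Subtype.val hm
    simpa using this
  have hpg : p • g = 0 := by
    have h1 : p • (⟨g, hg⟩ : ↥N) = 0 := by
      rw [← hN]
      exact card_nsmul_eq_zero'
    have := congrArg Subtype.val h1
    simpa using this
  refine ⟨(m % (p : ℤ)).toNat, ?_⟩
  have hmod : 0 ≤ m % (p : ℤ) := Int.emod_nonneg _ (by exact_mod_cast hp.ne_zero)
  rw [← hm', ← natCast_zsmul, Int.toNat_of_nonneg hmod]
  have e : m = m % (p : ℤ) + (p : ℤ) * (m / (p : ℤ)) := (Int.emod_add_mul_ediv m p).symm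
  conv_lhs => rw [e]
  rw [add_smul, mul_smul, natCast_zsmul, smul_comm, hpg, smul_zero, add_zero]

/-- **`G_ℚ` acts on the cofixed line through the mod `p` cyclotomic character** (determinant) -/
theorem mz2i_cyclo (N : AddSubgroup (Mz2iT P)) (hN : N ≤ mz2cTor (Mz2iT P) P.p 1)
    (hcard : Nat.card ↥N = P.p) (hstab : ∀ σ : GQ, ∀ x ∈ N, σ • x ∈ N)
    (hcof : ∀ σ : GQ, ∀ x ∈ mz2cTor (Mz2iT P) P.p 1, σ • x - x ∈ N) :
    haveI : Fact P.p.Prime := ⟨P.pp⟩
    ∀ σ : GQ, ∀ x ∈ N, σ • x = ExtCitation.cycloExp P.p σ • x := by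
  haveI : Fact P.p.Prime := ⟨P.pp⟩
  haveI : NeZero P.p := ⟨P.hp0⟩
  intro σ x hx
  have hp := P.pp
  have hNtor : ∀ l ∈ N, P.p • l = 0 := by
    intro l hl
    have := mem_mz2cTor.mp (hN hl)
    rwa [pow_one] at this
  -- a generator
  haveI : Finite ↥N := Nat.finite_of_card_ne_zero (by rw [hcard]; exact hp.ne_zero)
  obtain ⟨⟨g, hg⟩, hg0'⟩ : ∃ g : ↥N, g ≠ 0 := by
    haveI : Nontrivial ↥N := by
      rw [← Finite.one_lt_card_iff_nontrivial, hcard]
      exact hp.one_lt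
    exact exists_ne 0
  have hg0 : g ≠ 0 := fun h => hg0' (Subtype.ext h)
  have hgen := mz2i_exists_nsmul hp N hcard hg hg0
  obtain ⟨k, hk⟩ := hgen (σ • g) (hstab σ g hg)
  have hact : ∀ l ∈ N, σ • l = k • l := by
    intro l hl
    obtain ⟨j, rfl⟩ := hgen l hl
    have h1 : σ • (j • g) = j • (σ • g) :=
      map_nsmul (DistribSMul.toAddMonoidHom (Mz2iT P) σ) j g
    rw [h1, hk, smul_comm]
  -- the determinant
  obtain ⟨ζ, hζ⟩ := HasEnoughRootsOfUnity.exists_primitiveRoot Qb P.p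
  have hdet : σ ζ = ζ ^ k :=
    Fermat.Agent.Delta.dlp_det_of_model P.freyCurveInt (mz2f_Δ_ne_zero P) hp σ N k hcard hNtor hact
      (fun y hy => hcof σ y (by rw [mem_mz2cTor, pow_one]; exact hy)) hζ.pow_eq_one
  have hcyc : σ ζ = ζ ^ ExtCitation.cycloExp P.p σ := Fermat.Agent.CFT.S14.apply_eq_pow_cycloExp P.p σ hζ.pow_eq_one
  have hmod : k ≡ ExtCitation.cycloExp P.p σ [MOD P.p] := by
    have hfin : IsOfFinOrder ζ := isOfFinOrder_iff_pow_eq_one.mpr ⟨P.p, P.hppos, hζ.pow_eq_one⟩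
    have := hfin.pow_eq_pow_iff_modEq.mp (hdet.symm.trans hcyc)
    rwa [← hζ.eq_orderOf] at this
  rw [hact x hx]
  -- `k • x = cycloExp • x` since `p • x = 0`
  have hpx := hNtor x hx
  have red : ∀ a : ℕ, a • x = (a % P.p) • x := by
    intro a
    have e : a = a % P.p + P.p * (a / P.p) := (Nat.mod_add_div a P.p).symm
    conv_lhs => rw [e]
    rw [add_smul, mul_smul, smul_comm, hpx]
    simp
  have key : ∀ a b : ℕ, a ≡ b [MOD P.p] → a • x = b • x := by
    intro a b hab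
    rw [red a, red b, show a % P.p = b % P.p from hab]
  exact key _ _ hmod

end Fermat.Agent.Mazur2
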