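/-
ISOG (track S12/S09), package (P6) (helper7), part 3: **the term `I : Mz2cInput P.p (Mz2iT P)`**.

Everything global is assembled here:
* `N`, `N_le`, `N_card`, `N_cofixed`, `N_cyclo`, `card_tor`, `open_stab` : `Frey/Line.lean`;
* `ℓ₀`, `a₀`, `σ₀`, `a₀_ne`, `frob_rel`, and `3 ∣ abc` : `Frey/Frob.lean` (helper5);
* `mazur` : `Tw/Mazur.lean` (`mz2t_mazur_weak`, helper1) with the semistability of `Frey/Model.lean`;
* `t1_cyclo` : `Chain/Inst.lean` (helper5).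

The LOCAL inputs are hypotheses of `mz2i_false`:
* `Mz2iLoc0 P T0` (package (P3)) : `T0 A` = the points in the zero component at `A`, with (T2)–(T5);
* `Mz2iLoc1 P T1` (package (P4)) : `T1 A` = the kernel of reduction at `A ∣ p`, with (Q1)–(Q3).
-/
import Mathlib
import Fermat.Agent.Lib.Mazur2.Frey.Line
import Fermat.Agent.Lib.Mazur2.Frey.Frob
import Fermat.Agent.Lib.Mazur2.Chain.Inst
import Fermat.Agent.Lib.Mazur2.Tw.Mazur

set_option autoImplicit false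
set_option linter.unusedSectionVars false
set_option linter.unusedVariables false
set_option linter.style.haveILetI false

open WeierstrassCurve WeierstrassCurve.Affine WeierstrassCurve.Affine.Point

namespace Fermat.Agent.Mazur2

local notation "Qb" => AlgebraicClosure ℚ
local notation "GQ" => (AlgebraicClosure ℚ ≃ₐ[ℚ] AlgebraicClosure ℚ)

variable (P : FreyPackage) [Fact P.p.Prime]

/-- **package (P3)**: the local data at the places not over `p`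
(`T0 A` = the points in the zero component at `A`) -/
structure Mz2iLoc0 (T0 : ValuationSubring Qb → AddSubgroup (Mz2iT P)) : Prop where
  /-- `T0 A` is the zero component at `A`, on the `p`-power torsion and away from `p` -/
  mem_iff : ∀ ℓ : ℕ, ℓ.Prime → ℓ ≠ P.p → ∀ A : ValuationSubring Qb, A.LiesOverPrime ℓ →
    ∀ (Q : Mz2iT P) (n : ℕ), P.p ^ n • Q = 0 →
      (Q ∈ T0 A ↔ P.freyCurveInt.InZeroComponentAt A Q)
  /-- (T2) -/
  t0_inert : ∀ ℓ : ℕ, ℓ.Prime → ℓ ≠ P.p → ∀ A : ValuationSubring Qb, A.LiesOverPrime ℓ →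
    ∀ σ ∈ A.inertiaSubgroupIn ℚ, ∀ (n : ℕ) (x : Mz2iT P), x ∈ T0 A →
      x ∈ mz2cTor (Mz2iT P) P.p n → σ • x = x
  /-- (T3) -/
  t0_quot : ∀ ℓ : ℕ, ℓ.Prime → ℓ ≠ P.p → ∀ A : ValuationSubring Qb, A.LiesOverPrime ℓ →
    ∀ σ ∈ A.inertiaSubgroupIn ℚ, ∀ (n : ℕ) (x : Mz2iT P),
      x ∈ mz2cTor (Mz2iT P) P.p n → σ • x - x ∈ T0 A
  /-- (T4) -/
  t0_small : ∀ ℓ : ℕ, ℓ.Prime → ℓ ≠ P.p → ∀ A : ValuationSubring Qb, A.LiesOverPrime ℓ →
    T0 A = ⊤ ∨ Nat.card ↥(T0 A ⊓ mz2cTor (Mz2iT P) P.p 1) ≤ P.p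
  /-- (T5) -/
  t0_frob : ∀ r : ℕ, r = 2 ∨ r = 3 → ∀ A : ValuationSubring Qb, A.LiesOverPrime r →
    ∃ σ : GQ, ((ExtCitation.cycloExp P.p σ : ℕ) : ZMod P.p) = (r : ZMod P.p) ∧
      ∀ (n : ℕ) (x : Mz2iT P), x ∈ mz2cTor (Mz2iT P) P.p n →
        σ • x - x ∈ T0 A ∨ σ • x + x ∈ T0 A

/-- **package (P4)**: the local data at the places over `p`
(`T1 A` = the kernel of reduction at `A`) -/
structure Mz2iLoc1 (T1 : ValuationSubring Qb → AddSubgroup (Mz2iT P)) : Prop where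
  /-- (Q1) -/
  t1_stable : ∀ A : ValuationSubring Qb, A.LiesOverPrime P.p →
    ∀ σ ∈ A.decompositionSubgroup ℚ, ∀ x ∈ T1 A, σ • x ∈ T1 A
  /-- (Q2a) -/
  t1_small : ∀ A : ValuationSubring Qb, A.LiesOverPrime P.p →
    Nat.card ↥(T1 A ⊓ mz2cTor (Mz2iT P) P.p 1) ≤ P.p
  /-- (Q2b) -/
  t1_big : ∀ A : ValuationSubring Qb, A.LiesOverPrime P.p → ∀ n : ℕ,
    P.p ^ n ≤ Nat.card ↥(T1 A ⊓ mz2cTor (Mz2iT P) P.p n)
  /-- (Q3) -/
  t1_quot : ∀ A : ValuationSubring Qb, A.LiesOverPrime P.p →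
    ∀ σ ∈ A.inertiaSubgroupIn ℚ, ∀ (n : ℕ) (x : Mz2iT P),
      x ∈ mz2cTor (Mz2iT P) P.p n → σ • x - x ∈ T1 A

/-- a cofixed line of order `p` in `T[p]` is a proper subgroup of `T[p]` -/
theorem mz2i_exists_not_mem (N : AddSubgroup (Mz2iT P)) (hcard : Nat.card ↥N = P.p) :
    ∃ x : Mz2iT P, P.p • x = 0 ∧ x ∉ N := by
  by_contra hall
  have hall : ∀ x : Mz2iT P, P.p • x = 0 → x ∈ N := by
    intro x hx
    by_contra hxN
    exact hall ⟨x, hx, hxN⟩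
  have hle : mz2cTor (Mz2iT P) P.p 1 ≤ N := by
    intro x hx
    rw [mem_mz2cTor, pow_one] at hx
    exact hall x hx
  have hc := mz2i_card_tor P 1
  haveI : Finite ↥N := Nat.finite_of_card_ne_zero (by rw [hcard]; exact P.hp0)
  have := AddSubgroup.card_le_of_le hle
  rw [hc, hcard] at this
  have hp2 := P.pp.two_le
  rw [mul_one, sq] at this
  nlinarith

/-- **`3 ∣ Δ`** for a Frey curve with a cofixed line, `p ≥ 11` -/
theorem mz2i_three_dvd_Δ (hp : 11 ≤ P.p) (N : AddSubgroup (Mz2iT P))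
    (hN : N ≤ mz2cTor (Mz2iT P) P.p 1) (hcard : Nat.card ↥N = P.p)
    (hstab : ∀ σ : GQ, ∀ x ∈ N, σ • x ∈ N)
    (hcof : ∀ σ : GQ, ∀ x ∈ mz2cTor (Mz2iT P) P.p 1, σ • x - x ∈ N) :
    (3 : ℤ) ∣ P.freyCurveInt.Δ := by
  have h3 : (3 : ℤ) ∣ P.a * P.b * P.c :=
    mz2g_three_dvd_abc P hp N
      (fun σ x hx => hcof σ x (by rw [mem_mz2cTor, pow_one]; exact hx))
      (mz2i_exists_not_mem P N hcard)
      (fun x hx => by have := mem_mz2cTor.mp (hN hx); rwa [pow_one] at this) hstab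
  have := (mz2f_dvd_Δ_iff P Nat.prime_three).mpr (by exact_mod_cast h3)
  exact_mod_cast this

/-- **the input of the abstract chain for the Frey curve** -/
noncomputable def mz2iInput (hp : 17 ≤ P.p) (N : AddSubgroup (Mz2iT P))
    (hN : N ≤ mz2cTor (Mz2iT P) P.p 1) (hcard : Nat.card ↥N = P.p)
    (hstab : ∀ σ : GQ, ∀ x ∈ N, σ • x ∈ N)
    (hcof : ∀ σ : GQ, ∀ x ∈ mz2cTor (Mz2iT P) P.p 1, σ • x - x ∈ N)
    (T0 T1 : ValuationSubring Qb → AddSubgroup (Mz2iT P))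
    (h0 : Mz2iLoc0 P T0) (h1 : Mz2iLoc1 P T1)
    (ℓ₀ : ℕ) (σ₀ : GQ) (ha₀ : P.freyCurveInt.apOfModel ℓ₀ ≠ (ℓ₀ : ℤ) + 1)
    (hfrob : ∀ (n : ℕ) (x : Mz2iT P), P.p ^ n • x = 0 →
      σ₀ • σ₀ • x - P.freyCurveInt.apOfModel ℓ₀ • σ₀ • x + (ℓ₀ : ℤ) • x = 0) :
    Mz2cInput P.p (Mz2iT P) where
  N := N
  T0 := T0
  T1 := T1
  card_tor := mz2i_card_tor P
  open_stab := fun _ x _ => mz2i_open_stab P x
  N_le := hN
  N_card := hcard
  N_cofixed := hcof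
  N_cyclo := mz2i_cyclo P N hN hcard hstab hcof
  t0_inert := h0.t0_inert
  t0_quot := h0.t0_quot
  t0_small := h0.t0_small
  t0_frob := h0.t0_frob
  mazur := fun k g ho hs _ hprev _ h23 =>
    mz2t_mazur_weak (p := P.p)
      (by
        have := hp
        simp only [Finset.mem_insert, Finset.mem_singleton, not_or]
        omega)
      P.freyCurveInt (mz2f_Δ_ne_zero P) (fun ℓ hℓ => mz2f_semistable P hℓ)
      (mz2f_two_dvd_Δ P) (mz2i_three_dvd_Δ P (by omega) N hN hcard hstab hcof)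
      T0 h0.mem_iff k g ho hs hprev h23
  t1_stable := h1.t1_stable
  t1_small := h1.t1_small
  t1_big := h1.t1_big
  t1_quot := h1.t1_quot
  t1_cyclo := mz2c_t1_cyclo P.p (by omega)
  ℓ₀ := ℓ₀
  a₀ := P.freyCurveInt.apOfModel ℓ₀
  σ₀ := σ₀
  a₀_ne := ha₀
  frob_rel := fun n x hx => hfrob n x (mem_mz2cTor.mp hx)

/-- **S12 modulo the local packages (P3), (P4)** -/
theorem mz2i_false (hp : 17 ≤ P.p)
    (h : HasGaloisStableCofixedLine (K := AlgebraicClosure ℚ) ℚ P.freyCurve P.p)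
    (hloc0 : ∃ T0 : ValuationSubring Qb → AddSubgroup (Mz2iT P), Mz2iLoc0 P T0)
    (hloc1 : ∀ N : AddSubgroup (Mz2iT P), N ≤ mz2cTor (Mz2iT P) P.p 1 → Nat.card ↥N = P.p →
      (∀ σ : GQ, ∀ x ∈ N, σ • x ∈ N) →
      (∀ σ : GQ, ∀ x ∈ mz2cTor (Mz2iT P) P.p 1, σ • x - x ∈ N) →
      (∀ σ : GQ, ∀ x ∈ N, σ • x = ExtCitation.cycloExp P.p σ • x) →
      ∃ T1 : ValuationSubring Qb → AddSubgroup (Mz2iT P), Mz2iLoc1 P T1) : False := by
  obtain ⟨N, hN, hcard, hstab, hcof⟩ := mz2i_line P h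
  obtain ⟨T0, h0⟩ := hloc0
  obtain ⟨T1, h1⟩ := hloc1 N hN hcard hstab hcof (mz2i_cyclo P N hN hcard hstab hcof)
  obtain ⟨ℓ₀, σ₀, -, ha₀, hfrob⟩ := mz2g_frob_data P
  exact mz2c_final (by omega)
    (mz2iInput P hp N hN hcard hstab hcof T0 T1 h0 h1 ℓ₀ σ₀ ha₀ hfrob)

end Fermat.Agent.Mazur2
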